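/-
S56, wall W2-EC, step (D), sub-seat (SV-P) (helper83): Mackey by hand.

`G` a group, `W ≤ G`, `r : H →* G`.  A 1-cocycle `z` of `H` with values in `k[G/W]|_H` is a
coboundary iff `z(s)(x) = 0` whenever `r(s)` fixes `x ∈ G/W`.  For a 1-cocycle `y` of `G` and
`h ∈ G`, `g⁻¹ h g ∈ W`:  `y(h)(gW) = y(g⁻¹ h g)(W)`.
-/
import Fermat.Agent.F4.Shapiro.Module

set_option autoImplicit false

open CategoryTheory groupCohomology

namespace Fermat.Agent.S56.EC

open Fermat.Agent.F4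

variable {k G : Type} [CommRing k] [Group G] (W : Subgroup G)

section Coboundary

variable {H : Type} [Group H] (r : H →* G)

/-- The orbit relation of `H` on `G ⧸ W`. -/
def cySPRel : Setoid (G ⧸ W) where
  r x y := ∃ h : H, r h • x = y
  iseqv :=
    { refl := fun x => ⟨1, by rw [map_one, one_smul]⟩
      symm := by
        rintro x y ⟨h, rfl⟩
        exact ⟨h⁻¹, by rw [map_inv, inv_smul_smul]⟩
      trans := by
        rintro x y z ⟨h, rfl⟩ ⟨h', rfl⟩
        exact ⟨h' * h, by rw [map_mul, mul_smul]⟩ }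

/-- The chosen representative of the orbit of `x`. -/
noncomputable def cySPRep (x : G ⧸ W) : G ⧸ W :=
  (Quotient.mk (cySPRel W r) x).out

lemma cySPRep_rel (x : G ⧸ W) : ∃ h : H, r h • cySPRep W r x = x :=
  Quotient.mk_out (s := cySPRel W r) x

lemma cySPRep_smul (d : H) (x : G ⧸ W) : cySPRep W r (r d • x) = cySPRep W r x := by
  unfold cySPRep
  congr 1
  exact Quotient.sound (s := cySPRel W r) ⟨d⁻¹, by rw [map_inv, inv_smul_smul]⟩

/-- A chosen `t` with `t • rep(x) = x`. -/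
noncomputable def cySPT (x : G ⧸ W) : H := Classical.choose (cySPRep_rel W r x)

lemma cySPT_spec (x : G ⧸ W) : r (cySPT W r x) • cySPRep W r x = x :=
  Classical.choose_spec (cySPRep_rel W r x)

variable {W r}

lemma cySP_cocycle {z : H → (G ⧸ W) → k}
    (hz : ∀ g h : H, z (g * h) = (permRep k W).ρ (r g) (z h) + z g) (g h : H) (x : G ⧸ W) :
    z (g * h) x = z h ((r g)⁻¹ • x) + z g x := by
  have := congrFun (hz g h) x
  rw [this]
  rfl

lemma cySP_cocycle_one {z : H → (G ⧸ W) → k}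
    (hz : ∀ g h : H, z (g * h) = (permRep k W).ρ (r g) (z h) + z g) (x : G ⧸ W) :
    z 1 x = 0 := by
  have h := cySP_cocycle hz 1 1 x
  rw [mul_one, map_one, inv_one, one_smul] at h
  exact (add_eq_right.mp h.symm)

/-- The primitive of `z`. -/
noncomputable def cySPPrim (W : Subgroup G) (r : H →* G) (z : H → (G ⧸ W) → k) :
    (G ⧸ W) → k :=
  fun x => z (cySPT W r x)⁻¹ (cySPRep W r x)

/-- Independence of the choice of `t`. -/
lemma cySPPrim_eq {z : H → (G ⧸ W) → k}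
    (hz : ∀ g h : H, z (g * h) = (permRep k W).ρ (r g) (z h) + z g)
    (hstab : ∀ (s : H) (x : G ⧸ W), r s • x = x → z s x = 0)
    (x : G ⧸ W) (t : H) (ht : r t • cySPRep W r x = x) :
    cySPPrim W r z x = z t⁻¹ (cySPRep W r x) := by
  unfold cySPPrim
  set x₀ := cySPRep W r x with hx₀
  set t₀ := cySPT W r x with ht₀
  have h0 : r t₀ • x₀ = x := cySPT_spec W r x
  -- `t₀⁻¹ = s * t⁻¹` with `s = t₀⁻¹ * t` in the stabiliser of `x₀`
  have hs : r (t₀⁻¹ * t) • x₀ = x₀ := by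
    rw [map_mul, mul_smul, ht, map_inv, inv_smul_eq_iff, h0]
  have h1 : t₀⁻¹ = (t₀⁻¹ * t) * t⁻¹ := by group
  rw [h1, cySP_cocycle hz, hstab _ _ hs, add_zero]
  congr 1
  rw [inv_smul_eq_iff, hs]

/-- **Mackey by hand**: a cocycle with values in `k[G/W]|_H` which vanishes on the stabilisers
is the coboundary of `cySPPrim`. -/
theorem cySP_coboundary {z : H → (G ⧸ W) → k}
    (hz : ∀ g h : H, z (g * h) = (permRep k W).ρ (r g) (z h) + z g)
    (hstab : ∀ (s : H) (x : G ⧸ W), r s • x = x → z s x = 0) (d : H) :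
    z d = (permRep k W).ρ (r d) (cySPPrim W r z) - cySPPrim W r z := by
  funext x
  show z d x = cySPPrim W r z ((r d)⁻¹ • x) - cySPPrim W r z x
  set x₀ := cySPRep W r x with hx₀
  set t := cySPT W r x with ht
  have h0 : r t • x₀ = x := cySPT_spec W r x
  have hrep : cySPRep W r ((r d)⁻¹ • x) = x₀ := by
    have := cySPRep_smul W r d⁻¹ x
    rwa [map_inv] at this
  have h1 : cySPPrim W r z ((r d)⁻¹ • x) = z (d⁻¹ * t)⁻¹ x₀ := by
    have := cySPPrim_eq hz hstab ((r d)⁻¹ • x) (d⁻¹ * t)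
      (by rw [hrep, map_mul, mul_smul, h0, map_inv])
    rw [this, hrep]
  have h2 : cySPPrim W r z x = z t⁻¹ x₀ := rfl
  rw [h1, h2]
  have h3 : (d⁻¹ * t)⁻¹ = t⁻¹ * d := by group
  rw [h3, cySP_cocycle hz, map_inv, inv_inv, h0]
  ring

/-- The converse: coboundaries vanish on the stabilisers. -/
lemma cySP_stab_of_coboundary {z : H → (G ⧸ W) → k} (n : (G ⧸ W) → k)
    (hn : ∀ d : H, z d = (permRep k W).ρ (r d) n - n) (s : H) (x : G ⧸ W)
    (hs : r s • x = x) : z s x = 0 := by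
  rw [hn s]
  show n ((r s)⁻¹ • x) - n x = 0
  rw [inv_smul_eq_iff.mpr hs.symm, sub_self]

end Coboundary

section Conj

/-- `y(h)(gW) = y(g⁻¹ h g)(W)` for a cocycle `y` and `g⁻¹ h g ∈ W`. -/
lemma cySP_conj {y : G → (G ⧸ W) → k}
    (hy : ∀ g h : G, y (g * h) = (permRep k W).ρ g (y h) + y g) (g h : G)
    (hw : g⁻¹ * h * g ∈ W) :
    y h ((g : G) : G ⧸ W) = y (g⁻¹ * h * g) (shBase W) := by
  have hc : ∀ (a b : G) (x : G ⧸ W), y (a * b) x = y b (a⁻¹ • x) + y a x := fun a b x =>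
    cySP_cocycle (r := MonoidHom.id G) (fun a b => hy a b) a b x
  have h1 : y 1 ((g : G) : G ⧸ W) = 0 :=
    cySP_cocycle_one (r := MonoidHom.id G) (fun a b => hy a b) _
  set w := g⁻¹ * h * g with hwdef
  have hh : h = g * (w * g⁻¹) := by rw [hwdef]; group
  have hgx : g⁻¹ • ((g : G) : G ⧸ W) = shBase W := by
    show ((g⁻¹ * g : G) : G ⧸ W) = _
    rw [inv_mul_cancel]
    rfl
  have hwx : w⁻¹ • shBase W = shBase W := by
    show ((w⁻¹ * 1 : G) : G ⧸ W) = ((1 : G) : G ⧸ W)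
    rw [mul_one, QuotientGroup.eq, inv_inv, mul_one]
    exact hw
  have h2 : y (g * g⁻¹) ((g : G) : G ⧸ W) = y g⁻¹ (shBase W) + y g ((g : G) : G ⧸ W) := by
    rw [hc, hgx]
  rw [mul_inv_cancel, h1] at h2
  rw [hh, hc, hgx, hc, hwx]
  linear_combination -h2

end Conj

end Fermat.Agent.S56.EC
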